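import Mathlib

set_option autoImplicit false

open Complex Filter Topology

namespace Fermat.Agent.X0N

/-- Abstract Fuchsian uniqueness: an analytic `D` with `z D' A = D B`, `A 0 = -4`, `B 0 = 12`
vanishes identically near `0` (the indicial equation `-4 n = 12` has no solution `n : ℕ`). -/
theorem jinj_eventually_zero_of_fuchs {D E A B : ℂ → ℂ}
    (hD : AnalyticAt ℂ D 0) (hA : ContinuousAt A 0) (hB : ContinuousAt B 0)
    (hDE : ∀ᶠ z in 𝓝 (0 : ℂ), deriv D z = E z)
    (hA0 : A 0 = -4) (hB0 : B 0 = 12)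
    (hrel : ∀ᶠ z in 𝓝[≠] (0 : ℂ), z * E z * A z = D z * B z) :
    ∀ᶠ z in 𝓝 (0 : ℂ), D z = 0 := by
  by_contra h
  obtain ⟨n, g, hg, hg0, hDg⟩ := hD.exists_eventuallyEq_pow_smul_nonzero_iff.mpr h
  simp only [sub_zero, smul_eq_mul] at hDg
  -- derivative of D near 0
  have hgd : ∀ᶠ z in 𝓝 (0 : ℂ), DifferentiableAt ℂ g z :=
    hg.eventually_analyticAt.mono fun z hz => hz.differentiableAt
  have hDd : ∀ᶠ z in 𝓝 (0 : ℂ), deriv D z = n * z ^ (n - 1) * g z + z ^ n * deriv g z := by
    have h1 : ∀ᶠ z in 𝓝 (0 : ℂ), D =ᶠ[𝓝 z] fun w => w ^ n * g w := hDg.eventually_nhds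
    filter_upwards [h1, hgd] with z hz hgz
    rw [hz.deriv_eq]
    have := ((hasDerivAt_pow n z).mul hgz.hasDerivAt).deriv
    have e : (fun w : ℂ => w ^ n * g w) = (fun x : ℂ => x ^ n) * g := rfl
    rw [e, this]
  -- the key function
  set F : ℂ → ℂ := fun z => (n * g z + z * deriv g z) * A z - g z * B z with hF
  have hFc : ContinuousAt F 0 := by
    have hg' : ContinuousAt (deriv g) 0 := hg.deriv.continuousAt
    have hgc : ContinuousAt g 0 := hg.continuousAt
    have hid : ContinuousAt (fun z : ℂ => z) 0 := continuousAt_id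
    exact (((continuousAt_const.mul hgc).add (hid.mul hg')).mul hA).sub (hgc.mul hB)
  have hF0 : ∀ᶠ z in 𝓝[≠] (0 : ℂ), F z = 0 := by
    have h1 := hDE.filter_mono (nhdsWithin_le_nhds (s := {0}ᶜ))
    have h2 := hDd.filter_mono (nhdsWithin_le_nhds (s := {0}ᶜ))
    have h3 := hDg.filter_mono (nhdsWithin_le_nhds (s := {0}ᶜ))
    filter_upwards [hrel, h1, h2, h3, self_mem_nhdsWithin] with z hz h1 h2 h3 hz0
    have hz0' : z ≠ 0 := hz0
    rw [← h1, h2, h3] at hz
    have hzn : z ^ n ≠ 0 := pow_ne_zero _ hz0'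
    have hpow : z * ((n : ℂ) * z ^ (n - 1)) = n * z ^ n := by
      rcases Nat.eq_zero_or_pos n with rfl | hn
      · simp
      · have : z * z ^ (n - 1) = z ^ n := by
          rw [← pow_succ', Nat.sub_add_cancel hn]
        rw [mul_left_comm, this]
    have key : z ^ n * ((n * g z + z * deriv g z) * A z - g z * B z) = 0 := by
      have : z ^ n * ((n * g z + z * deriv g z) * A z) = z ^ n * g z * B z := by
        rw [← hz]
        have : z * (↑n * z ^ (n - 1) * g z + z ^ n * deriv g z) * A z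
            = (z * (↑n * z ^ (n - 1)) * g z + z ^ n * (z * deriv g z)) * A z := by ring
        rw [this, hpow]; ring
      rw [mul_sub, this]; ring
    exact (mul_eq_zero.mp key).resolve_left hzn
  have hF00 : F 0 = 0 := by
    have : Tendsto F (𝓝[≠] (0 : ℂ)) (𝓝 (F 0)) := hFc.tendsto.mono_left nhdsWithin_le_nhds
    have h2 : Tendsto F (𝓝[≠] (0 : ℂ)) (𝓝 0) :=
      (tendsto_const_nhds).congr' (hF0.mono fun z hz => hz.symm)
    exact tendsto_nhds_unique this h2
  simp only [hF, hA0, hB0, zero_mul, add_zero] at hF00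
  have : ((n : ℂ) * (-4) - 12) * g 0 = 0 := by linear_combination hF00
  rcases mul_eq_zero.mp this with h1 | h1
  · have : ((n : ℂ) * 4 + 12) = 0 := by linear_combination -h1
    have h4 : ((n * 4 + 12 : ℕ) : ℂ) = 0 := by push_cast; exact this
    have := Nat.cast_eq_zero.mp h4
    omega
  · exact hg0 h1

end Fermat.Agent.X0N
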