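import Mathlib
import Fermat.Agent.X0N.JInjCore

set_option autoImplicit false

open Complex Filter Topology PeriodPair

namespace Fermat.Agent.X0N

/-- Near `0`, the regularised Weierstrass functions of two period pairs with the same
`g₂`, `g₃` coincide. -/
theorem jinj_except_eventuallyEq (L₁ L₂ : PeriodPair) (h2 : L₁.g₂ = L₂.g₂) (h3 : L₁.g₃ = L₂.g₃) :
    ∀ᶠ z in 𝓝 (0 : ℂ), ℘[L₁ - (0 : ℂ)] z = ℘[L₂ - (0 : ℂ)] z := by
  set P₁ := ℘[L₁ - (0 : ℂ)] with hP₁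
  set P₂ := ℘[L₂ - (0 : ℂ)] with hP₂
  set Q₁ := ℘'[L₁ - (0 : ℂ)] with hQ₁
  set Q₂ := ℘'[L₂ - (0 : ℂ)] with hQ₂
  have aP₁ : AnalyticAt ℂ P₁ 0 := L₁.analyticAt_weierstrassPExcept 0
  have aP₂ : AnalyticAt ℂ P₂ 0 := L₂.analyticAt_weierstrassPExcept 0
  have aQ₁ : AnalyticAt ℂ Q₁ 0 := L₁.analyticAt_derivWeierstrassPExcept 0
  have aQ₂ : AnalyticAt ℂ Q₂ 0 := L₂.analyticAt_derivWeierstrassPExcept 0
  have key := jinj_eventually_zero_of_fuchs (D := fun z => P₁ z - P₂ z)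
    (E := fun z => Q₁ z - Q₂ z)
    (A := fun z => z ^ 3 * (Q₁ z + Q₂ z) - 4)
    (B := fun z => 4 * ((z ^ 2 * P₁ z + 1) ^ 2 + (z ^ 2 * P₁ z + 1) * (z ^ 2 * P₂ z + 1)
      + (z ^ 2 * P₂ z + 1) ^ 2) - L₁.g₂ * z ^ 4)
    (aP₁.sub aP₂) ?_ ?_ ?_ ?_ ?_ ?_
  · exact key.mono fun z hz => sub_eq_zero.mp hz
  · have : AnalyticAt ℂ (fun z => z ^ 3 * (Q₁ z + Q₂ z) - 4) 0 := by fun_prop
    exact this.continuousAt
  · have : AnalyticAt ℂ (fun z => 4 * ((z ^ 2 * P₁ z + 1) ^ 2 + (z ^ 2 * P₁ z + 1) * (z ^ 2 * P₂ z + 1)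
      + (z ^ 2 * P₂ z + 1) ^ 2) - L₁.g₂ * z ^ 4) 0 := by fun_prop
    exact this.continuousAt
  · -- derivative
    filter_upwards [L₁.compl_lattice_sdiff_singleton_mem_nhds 0,
      L₂.compl_lattice_sdiff_singleton_mem_nhds 0] with z hz₁ hz₂
    have d₁ : DifferentiableAt ℂ P₁ z :=
      (L₁.analyticOnNhd_weierstrassPExcept 0 z hz₁).differentiableAt
    have d₂ : DifferentiableAt ℂ P₂ z :=
      (L₂.analyticOnNhd_weierstrassPExcept 0 z hz₂).differentiableAt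
    have e₁ := L₁.eqOn_deriv_weierstrassPExcept_derivWeierstrassPExcept 0 hz₁
    have e₂ := L₂.eqOn_deriv_weierstrassPExcept_derivWeierstrassPExcept 0 hz₂
    show deriv (fun z => P₁ z - P₂ z) z = Q₁ z - Q₂ z
    rw [deriv_fun_sub d₁ d₂, e₁, e₂]
  · simp
  · simp; norm_num
  · -- the relation
    have m₁ : (↑L₁.lattice \ {(0 : ℂ)})ᶜ ∈ 𝓝[≠] (0 : ℂ) :=
      mem_nhdsWithin_of_mem_nhds (L₁.compl_lattice_sdiff_singleton_mem_nhds 0)
    have m₂ : (↑L₂.lattice \ {(0 : ℂ)})ᶜ ∈ 𝓝[≠] (0 : ℂ) :=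
      mem_nhdsWithin_of_mem_nhds (L₂.compl_lattice_sdiff_singleton_mem_nhds 0)
    filter_upwards [m₁, m₂, self_mem_nhdsWithin] with z hz₁ hz₂ hz0
    have hz : z ≠ 0 := hz0
    have n₁ : z ∉ L₁.lattice := fun h => hz₁ ⟨h, hz⟩
    have n₂ : z ∉ L₂.lattice := fun h => hz₂ ⟨h, hz⟩
    have o₁ := L₁.derivWeierstrassP_sq z n₁
    have o₂ := L₂.derivWeierstrassP_sq z n₂
    have p₁ : ℘[L₁] z = P₁ z + 1 / z ^ 2 := by
      have := L₁.weierstrassPExcept_def (0 : L₁.lattice) z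
      simp only [ZeroMemClass.coe_zero, sub_zero] at this
      rw [hP₁, this]; simp
    have p₂ : ℘[L₂] z = P₂ z + 1 / z ^ 2 := by
      have := L₂.weierstrassPExcept_def (0 : L₂.lattice) z
      simp only [ZeroMemClass.coe_zero, sub_zero] at this
      rw [hP₂, this]; simp
    have q₁ : ℘'[L₁] z = Q₁ z - 2 / z ^ 3 := by
      have := L₁.derivWeierstrassPExcept_def (0 : L₁.lattice) z
      simp only [ZeroMemClass.coe_zero, sub_zero] at this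
      rw [hQ₁, this]; ring
    have q₂ : ℘'[L₂] z = Q₂ z - 2 / z ^ 3 := by
      have := L₂.derivWeierstrassPExcept_def (0 : L₂.lattice) z
      simp only [ZeroMemClass.coe_zero, sub_zero] at this
      rw [hQ₂, this]; ring
    rw [p₁, q₁] at o₁
    rw [p₂, q₂, ← h2, ← h3] at o₂
    have o₁' : (z ^ 3 * Q₁ z - 2) ^ 2 = 4 * (z ^ 2 * P₁ z + 1) ^ 3
        - L₁.g₂ * z ^ 4 * (z ^ 2 * P₁ z + 1) - L₁.g₃ * z ^ 6 := by
      field_simp at o₁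
      linear_combination o₁
    have o₂' : (z ^ 3 * Q₂ z - 2) ^ 2 = 4 * (z ^ 2 * P₂ z + 1) ^ 3
        - L₁.g₂ * z ^ 4 * (z ^ 2 * P₂ z + 1) - L₁.g₃ * z ^ 6 := by
      field_simp at o₂
      linear_combination o₂
    have hz2 : z ^ 2 ≠ 0 := pow_ne_zero 2 hz
    apply mul_left_cancel₀ hz2
    linear_combination o₁' - o₂'

end Fermat.Agent.X0N

namespace Fermat.Agent.X0N

theorem jinj_weierstrassP_eq_except (L : PeriodPair) (z : ℂ) :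
    ℘[L] z = ℘[L - (0 : ℂ)] z + 1 / z ^ 2 := by
  have := L.weierstrassPExcept_def (0 : L.lattice) z
  simp only [ZeroMemClass.coe_zero, sub_zero] at this
  rw [this]; simp

theorem jinj_lattice_countable (L : PeriodPair) : (L.lattice : Set ℂ).Countable := by
  have : Countable L.lattice := Countable.of_equiv _ L.latticeEquivProd.toEquiv.symm
  exact Set.countable_coe_iff.mp this

theorem jinj_lattice_le_of_g2_g3 (L₁ L₂ : PeriodPair) (h2 : L₁.g₂ = L₂.g₂)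
    (h3 : L₁.g₃ = L₂.g₃) : L₁.lattice ≤ L₂.lattice := by
  set U : Set ℂ := ((L₁.lattice : Set ℂ) ∪ (L₂.lattice : Set ℂ))ᶜ with hU
  have hUpre : IsPreconnected U := by
    have hc : ((L₁.lattice : Set ℂ) ∪ (L₂.lattice : Set ℂ)).Countable :=
      (jinj_lattice_countable L₁).union (jinj_lattice_countable L₂)
    exact (hc.isConnected_compl_of_one_lt_rank
      (by simp only [rank_real_complex, Nat.one_lt_ofNat])).isPreconnected
  have hU₁ : U ⊆ (L₁.lattice : Set ℂ)ᶜ := Set.compl_subset_compl.mpr Set.subset_union_left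
  have hU₂ : U ⊆ (L₂.lattice : Set ℂ)ᶜ := Set.compl_subset_compl.mpr Set.subset_union_right
  have a₁ : AnalyticOnNhd ℂ ℘[L₁] U := L₁.analyticOnNhd_weierstrassP.mono hU₁
  have a₂ : AnalyticOnNhd ℂ ℘[L₂] U := L₂.analyticOnNhd_weierstrassP.mono hU₂
  -- equality near 0
  have hev : ∀ᶠ z in 𝓝 (0 : ℂ), ℘[L₁] z = ℘[L₂] z := by
    filter_upwards [jinj_except_eventuallyEq L₁ L₂ h2 h3] with z hz
    rw [jinj_weierstrassP_eq_except, jinj_weierstrassP_eq_except, hz]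
  -- a base point
  have hmem : ∀ᶠ z in 𝓝[≠] (0 : ℂ), z ∈ U := by
    have m₁ : (↑L₁.lattice \ {(0 : ℂ)})ᶜ ∈ 𝓝[≠] (0 : ℂ) :=
      mem_nhdsWithin_of_mem_nhds (L₁.compl_lattice_sdiff_singleton_mem_nhds 0)
    have m₂ : (↑L₂.lattice \ {(0 : ℂ)})ᶜ ∈ 𝓝[≠] (0 : ℂ) :=
      mem_nhdsWithin_of_mem_nhds (L₂.compl_lattice_sdiff_singleton_mem_nhds 0)
    filter_upwards [m₁, m₂, self_mem_nhdsWithin] with z hz₁ hz₂ hz0
    have hz : z ≠ 0 := hz0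
    rintro (h | h)
    · exact hz₁ ⟨h, hz⟩
    · exact hz₂ ⟨h, hz⟩
  have hev' : ∀ᶠ z in 𝓝[≠] (0 : ℂ), ∀ᶠ w in 𝓝 z, ℘[L₁] w = ℘[L₂] w :=
    hev.eventually_nhds.filter_mono nhdsWithin_le_nhds
  obtain ⟨z₀, hz₀U, hz₀⟩ := (hmem.and hev').exists
  have hEq : Set.EqOn ℘[L₁] ℘[L₂] U :=
    a₁.eqOn_of_preconnected_of_eventuallyEq a₂ hUpre hz₀U hz₀
  -- compare poles
  intro l hl
  by_contra hl₂
  have o₁ := L₁.order_weierstrassP l hl
  have an₂ : AnalyticAt ℂ ℘[L₂] l := L₂.analyticOnNhd_weierstrassP l hl₂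
  have o₂ := an₂.meromorphicOrderAt_nonneg
  have hcongr : ℘[L₁] =ᶠ[𝓝[≠] l] ℘[L₂] := by
    have m₁ : (↑L₁.lattice \ {l})ᶜ ∈ 𝓝[≠] l :=
      mem_nhdsWithin_of_mem_nhds (L₁.compl_lattice_sdiff_singleton_mem_nhds l)
    have m₂ : (↑L₂.lattice \ {l})ᶜ ∈ 𝓝[≠] l :=
      mem_nhdsWithin_of_mem_nhds (L₂.compl_lattice_sdiff_singleton_mem_nhds l)
    filter_upwards [m₁, m₂, self_mem_nhdsWithin] with z hz₁ hz₂ hz0
    have hz : z ≠ l := hz0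
    apply hEq
    rintro (h | h)
    · exact hz₁ ⟨h, hz⟩
    · exact hz₂ ⟨h, hz⟩
  rw [meromorphicOrderAt_congr hcongr] at o₁
  rw [o₁] at o₂
  exact absurd o₂ (by decide)

theorem jinj_lattice_eq_of_g2_g3 (L₁ L₂ : PeriodPair) (h2 : L₁.g₂ = L₂.g₂)
    (h3 : L₁.g₃ = L₂.g₃) : L₁.lattice = L₂.lattice :=
  le_antisymm (jinj_lattice_le_of_g2_g3 L₁ L₂ h2 h3) (jinj_lattice_le_of_g2_g3 L₂ L₁ h2.symm h3.symm)

end Fermat.Agent.X0N
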