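import Mathlib
import Fermat.Agent.X0N.JInjLattice

set_option autoImplicit false

open Complex Filter Topology PeriodPair UpperHalfPlane ModularForm EisensteinSeries MatrixGroups

namespace Fermat.Agent.X0N

/-- The period pair `(c, c τ)`. -/
noncomputable def jinjPair (c : ℂ) (hc : c ≠ 0) (τ : ℍ) : PeriodPair where
  ω₁ := c
  ω₂ := c * τ
  indep := by
    rw [LinearIndependent.pair_iff]
    intro s t h
    have h1 : c * ((s : ℂ) + t * τ) = 0 := by
      simp only [Complex.real_smul] at h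
      linear_combination h
    have h2 : (s : ℂ) + t * τ = 0 := (mul_eq_zero.mp h1).resolve_left hc
    have him := congrArg Complex.im h2
    have hre := congrArg Complex.re h2
    simp at him hre
    have hτ : (τ : ℂ).im ≠ 0 := τ.im_ne_zero
    have ht : t = 0 := by
      rcases him with h | h
      · exact h
      · exact absurd h hτ
    subst ht
    simp at hre
    exact ⟨hre, rfl⟩

@[simp] theorem jinjPair_ω₁ (c : ℂ) (hc : c ≠ 0) (τ : ℍ) : (jinjPair c hc τ).ω₁ = c := rfl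
@[simp] theorem jinjPair_ω₂ (c : ℂ) (hc : c ≠ 0) (τ : ℍ) : (jinjPair c hc τ).ω₂ = c * τ := rfl

theorem jinjPair_mem_lattice (c : ℂ) (hc : c ≠ 0) (τ : ℍ) (x : ℂ) :
    x ∈ (jinjPair c hc τ).lattice ↔ ∃ m n : ℤ, x = c * (m + n * τ) := by
  rw [PeriodPair.mem_lattice]
  constructor
  · rintro ⟨m, n, h⟩
    exact ⟨m, n, by rw [← h]; simp; ring⟩
  · rintro ⟨m, n, h⟩
    exact ⟨m, n, by rw [h]; simp; ring⟩

/-- The lattice Eisenstein sum of `(c, cτ)` in terms of the modular Eisenstein series. -/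
theorem jinjPair_G (c : ℂ) (hc : c ≠ 0) (τ : ℍ) {k : ℕ} (hk : 3 ≤ k) :
    (jinjPair c hc τ).G k = (c ^ k)⁻¹ * (2 * riemannZeta k * E hk τ) := by
  have hE : E hk τ = (1 / 2 : ℂ) * eisensteinSeries (N := 1) 0 k τ := by
    rw [show E hk τ = (1 / 2 : ℂ) • eisensteinSeriesSIF (N := 1) 0 k τ from rfl,
      eisensteinSeriesSIF_apply 0 k τ, smul_eq_mul]
  have h1 := tsum_eisSummand_eq_riemannZeta_mul_eisensteinSeries hk τ
  have h2 : (2 * riemannZeta k * E hk τ) = ∑' v : Fin 2 → ℤ, eisSummand k v τ := by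
    rw [h1, hE]; ring
  rw [h2, PeriodPair.G]
  set L := jinjPair c hc τ with hL
  rw [← L.latticeEquivProd.symm.toEquiv.tsum_eq]
  rw [← (finTwoArrowEquiv ℤ).symm.tsum_eq, ← (Equiv.prodComm ℤ ℤ).tsum_eq, ← tsum_mul_left]
  refine tsum_congr fun x => ?_
  have e1 : ∀ y : ℤ × ℤ, ((L.latticeEquivProd.symm.toEquiv y : L.lattice) : ℂ)
      = c * (y.2 * τ + y.1) := by
    intro y
    have := L.latticeEquiv_symm_apply y
    simp only [LinearEquiv.coe_toEquiv]
    rw [this, hL]; simp; ring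
  rw [e1]
  simp only [Equiv.prodComm_apply, finTwoArrowEquiv_symm_apply, eisSummand, Prod.fst_swap,
    Prod.snd_swap, Matrix.cons_val_zero, Matrix.cons_val_one, zpow_neg, zpow_natCast, mul_pow,
    mul_inv]


theorem jinj_int_indep (τ : ℍ) (m n : ℤ) (h : (m : ℂ) + n * τ = 0) : m = 0 ∧ n = 0 := by
  have him := congrArg Complex.im h
  have hre := congrArg Complex.re h
  simp at him hre
  have hτ : (τ : ℂ).im ≠ 0 := τ.im_ne_zero
  have hn : n = 0 := by
    rcases him with h | h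
    · exact_mod_cast h
    · exact absurd h hτ
  subst hn
  simp at hre
  exact ⟨by exact_mod_cast hre, rfl⟩

/-- Homothetic lattices `ℤ + ℤ τ₂ = c (ℤ + ℤ τ₁)` give `SL₂(ℤ)`-equivalent points. -/
theorem jinj_exists_smul_of_lattice_eq (τ₁ τ₂ : ℍ) (c : ℂ) (hc : c ≠ 0)
    (h : (jinjPair c hc τ₁).lattice = (jinjPair 1 one_ne_zero τ₂).lattice) :
    ∃ γ : SL(2, ℤ), γ • τ₁ = τ₂ := by
  have mem₁ := jinjPair_mem_lattice c hc τ₁
  have mem₂ := jinjPair_mem_lattice 1 one_ne_zero τ₂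
  -- τ₂ and 1 in L₁
  obtain ⟨b, a, hτ₂⟩ : ∃ m n : ℤ, (τ₂ : ℂ) = c * (m + n * τ₁) := by
    rw [← mem₁, h, mem₂]; exact ⟨0, 1, by simp⟩
  obtain ⟨d, c', h1⟩ : ∃ m n : ℤ, (1 : ℂ) = c * (m + n * τ₁) := by
    rw [← mem₁, h, mem₂]; exact ⟨1, 0, by simp⟩
  -- c and c τ₁ in L₂
  obtain ⟨d', c'', hc'⟩ : ∃ m n : ℤ, c = 1 * (m + n * τ₂) := by
    rw [← mem₂, ← h, mem₁]; exact ⟨1, 0, by simp⟩
  obtain ⟨b', a', hcτ⟩ : ∃ m n : ℤ, c * τ₁ = 1 * (m + n * τ₂) := by
    rw [← mem₂, ← h, mem₁]; exact ⟨0, 1, by simp⟩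
  rw [one_mul] at hc' hcτ
  -- relations
  have r1 : ((b' * d + a' * b : ℤ) : ℂ) + ((b' * c' + a' * a - 1 : ℤ) : ℂ) * τ₁ = 0 := by
    have : c * ((b' * d + a' * b : ℤ) + ((b' * c' + a' * a - 1 : ℤ) : ℂ) * τ₁) = 0 := by
      push_cast
      have e : c * (((b' : ℂ) * d + a' * b) + ((b' : ℂ) * c' + a' * a - 1) * τ₁)
          = b' * (c * (d + c' * τ₁)) + a' * (c * (b + a * τ₁)) - c * τ₁ := by ring
      rw [e, ← hτ₂, ← h1, hcτ]; ring
    exact (mul_eq_zero.mp this).resolve_left hc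
  have r2 : ((d' * d + c'' * b - 1 : ℤ) : ℂ) + ((d' * c' + c'' * a : ℤ) : ℂ) * τ₁ = 0 := by
    have : c * ((d' * d + c'' * b - 1 : ℤ) + ((d' * c' + c'' * a : ℤ) : ℂ) * τ₁) = 0 := by
      push_cast
      have e : c * (((d' : ℂ) * d + c'' * b - 1) + ((d' : ℂ) * c' + c'' * a) * τ₁)
          = d' * (c * (d + c' * τ₁)) + c'' * (c * (b + a * τ₁)) - c := by ring
      rw [e, ← hτ₂, ← h1]
      linear_combination (-1 : ℂ) * hc'
    exact (mul_eq_zero.mp this).resolve_left hc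
  obtain ⟨e1, e2⟩ := jinj_int_indep τ₁ _ _ r1
  obtain ⟨e3, e4⟩ := jinj_int_indep τ₁ _ _ r2
  have hdet : (a' * d' - b' * c'') * (a * d - b * c') = 1 := by
    have : (a' * d' - b' * c'') * (a * d - b * c')
        = (b' * c' + a' * a - 1 + 1) * (d' * d + c'' * b - 1 + 1)
          - (b' * d + a' * b) * (d' * c' + c'' * a) := by ring
    rw [this, e1, e2, e3, e4]; ring
  -- the Moebius relation
  have hw : (c' : ℂ) * τ₁ + d ≠ 0 := by
    intro h0
    have : (1 : ℂ) = 0 := by rw [h1, show (d : ℂ) + c' * τ₁ = c' * τ₁ + d by ring, h0, mul_zero]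
    exact one_ne_zero this
  have hmoeb : (τ₂ : ℂ) * (c' * τ₁ + d) = a * τ₁ + b := by
    have : c * ((τ₂ : ℂ) * (c' * τ₁ + d)) = c * (a * τ₁ + b) := by
      have e : c * ((τ₂ : ℂ) * (c' * τ₁ + d)) = τ₂ * (c * (d + c' * τ₁)) := by ring
      rw [e, ← h1, mul_one, hτ₂]; ring
    exact mul_left_cancel₀ hc this
  -- sign of the determinant
  have hpos : 0 < a * d - b * c' := by
    rcases Int.eq_one_or_neg_one_of_mul_eq_one (by rw [mul_comm] at hdet; exact hdet) with h | h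
    · rw [h]; norm_num
    · exfalso
      have hre := congrArg Complex.re hmoeb
      have him := congrArg Complex.im hmoeb
      simp at hre him
      have y1 : 0 < τ₁.im := τ₁.im_pos
      have y2 : 0 < τ₂.im := τ₂.im_pos
      have hdetR : ((a : ℝ) * d - b * c') = -1 := by exact_mod_cast h
      have key : τ₂.im * (((c' : ℝ) * τ₁.re + d) ^ 2 + (c' : ℝ) ^ 2 * τ₁.im ^ 2)
          = ((a : ℝ) * d - b * c') * τ₁.im := by
        linear_combination ((c' : ℝ) * τ₁.re + d) * him - (c' : ℝ) * τ₁.im * hre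
      rw [hdetR] at key
      have : 0 ≤ τ₂.im * (((c' : ℝ) * τ₁.re + d) ^ 2 + (c' : ℝ) ^ 2 * τ₁.im ^ 2) := by positivity
      linarith
  have hdet1 : a * d - b * c' = 1 := by
    rcases Int.eq_one_or_neg_one_of_mul_eq_one (by rw [mul_comm] at hdet; exact hdet) with h | h
    · exact h
    · rw [h] at hpos; exact absurd hpos (by norm_num)
  let γ : SL(2, ℤ) := ⟨!![a, b; c', d], by rw [Matrix.det_fin_two_of]; exact hdet1⟩
  have g00 : γ 0 0 = a := rfl
  have g01 : γ 0 1 = b := rfl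
  have g10 : γ 1 0 = c' := rfl
  have g11 : γ 1 1 = d := rfl
  refine ⟨γ, ?_⟩
  apply UpperHalfPlane.ext
  rw [coe_specialLinearGroup_apply, g00, g01, g10, g11]
  simp only [algebraMap_int_eq, eq_intCast, Complex.ofReal_intCast]
  rw [div_eq_iff hw]
  exact hmoeb.symm

end Fermat.Agent.X0N
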