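import Mathlib
import Fermat.Agent.X0N.JInjModular

set_option autoImplicit false

open Complex Filter Topology PeriodPair UpperHalfPlane ModularForm EisensteinSeries MatrixGroups

namespace Fermat.Agent.X0N

theorem jinj_exists_smul_of_E (τ₁ τ₂ : ℍ) (s : ℂ) (hs : s ≠ 0)
    (h4 : E₄ τ₂ = s ^ 4 * E₄ τ₁) (h6 : E₆ τ₂ = s ^ 6 * E₆ τ₁) :
    ∃ γ : SL(2, ℤ), γ • τ₁ = τ₂ := by
  have hc : s⁻¹ ≠ 0 := inv_ne_zero hs
  apply jinj_exists_smul_of_lattice_eq τ₁ τ₂ s⁻¹ hc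
  apply jinj_lattice_eq_of_g2_g3
  · unfold PeriodPair.g₂
    rw [jinjPair_G s⁻¹ hc τ₁ (by norm_num : 3 ≤ 4), jinjPair_G 1 one_ne_zero τ₂ (by norm_num : 3 ≤ 4)]
    show 60 * (((s⁻¹) ^ 4)⁻¹ * (2 * riemannZeta (4 : ℕ) * E₄ τ₁))
      = 60 * (((1 : ℂ) ^ 4)⁻¹ * (2 * riemannZeta (4 : ℕ) * E₄ τ₂))
    rw [h4]; simp; ring
  · unfold PeriodPair.g₃
    rw [jinjPair_G s⁻¹ hc τ₁ (by norm_num : 3 ≤ 6), jinjPair_G 1 one_ne_zero τ₂ (by norm_num : 3 ≤ 6)]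
    show 140 * (((s⁻¹) ^ 6)⁻¹ * (2 * riemannZeta (6 : ℕ) * E₆ τ₁))
      = 140 * (((1 : ℂ) ^ 6)⁻¹ * (2 * riemannZeta (6 : ℕ) * E₆ τ₂))
    rw [h6]; simp; ring

/-- **Injectivity of `j` modulo `SL₂(ℤ)`**, in cross-multiplied form (`j = E₄³/Δ`). -/
theorem jinj_main (τ₁ τ₂ : ℍ)
    (h : E₄ τ₁ ^ 3 * discriminant τ₂ = E₄ τ₂ ^ 3 * discriminant τ₁) :
    ∃ γ : SL(2, ℤ), γ • τ₁ = τ₂ := by
  have hΔ₁ := discriminant_ne_zero τ₁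
  have hΔ₂ := discriminant_ne_zero τ₂
  rw [discriminant_eq_E₄_cube_sub_E₆_sq] at hΔ₁ hΔ₂
  rw [discriminant_eq_E₄_cube_sub_E₆_sq, discriminant_eq_E₄_cube_sub_E₆_sq] at h
  set a₁ := E₄ τ₁ with ha₁
  set b₁ := E₆ τ₁ with hb₁
  set a₂ := E₄ τ₂ with ha₂
  set b₂ := E₆ τ₂ with hb₂
  have hd₁ : a₁ ^ 3 - b₁ ^ 2 ≠ 0 := fun h0 => hΔ₁ (by rw [h0, zero_div])
  have hd₂ : a₂ ^ 3 - b₂ ^ 2 ≠ 0 := fun h0 => hΔ₂ (by rw [h0, zero_div])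
  have hrel : a₁ ^ 3 * b₂ ^ 2 = a₂ ^ 3 * b₁ ^ 2 := by
    field_simp at h
    linear_combination -h
  by_cases ha : a₁ = 0
  · -- then b₁ ≠ 0, a₂ = 0
    have hb : b₁ ≠ 0 := by
      intro hb; apply hd₁; rw [ha, hb]; ring
    have ha2 : a₂ = 0 := by
      rw [ha] at hrel
      have : a₂ ^ 3 * b₁ ^ 2 = 0 := by rw [← hrel]; ring
      rcases mul_eq_zero.mp this with h | h
      · exact pow_eq_zero_iff (by norm_num) |>.mp h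
      · exact absurd (pow_eq_zero_iff (by norm_num) |>.mp h) hb
    have hb2 : b₂ ≠ 0 := by
      intro hb; apply hd₂; rw [ha2, hb]; ring
    obtain ⟨s, hs⟩ := IsAlgClosed.exists_pow_nat_eq (b₂ / b₁) (n := 6) (by norm_num)
    have hs0 : s ≠ 0 := by
      intro h0; rw [h0] at hs
      have : b₂ / b₁ = 0 := by rw [← hs]; ring
      exact (div_ne_zero hb2 hb) this
    refine jinj_exists_smul_of_E τ₁ τ₂ s hs0 ?_ ?_
    · rw [← ha₂, ← ha₁, ha, ha2]; ring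
    · rw [← hb₂, ← hb₁, hs]; field_simp
  by_cases hb : b₁ = 0
  · have hb2 : b₂ = 0 := by
      rw [hb] at hrel
      have : a₁ ^ 3 * b₂ ^ 2 = 0 := by rw [hrel]; ring
      rcases mul_eq_zero.mp this with h | h
      · exact absurd (pow_eq_zero_iff (by norm_num) |>.mp h) ha
      · exact pow_eq_zero_iff (by norm_num) |>.mp h
    have ha2 : a₂ ≠ 0 := by
      intro ha2; apply hd₂; rw [ha2, hb2]; ring
    obtain ⟨s, hs⟩ := IsAlgClosed.exists_pow_nat_eq (a₂ / a₁) (n := 4) (by norm_num)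
    have hs0 : s ≠ 0 := by
      intro h0; rw [h0] at hs
      have : a₂ / a₁ = 0 := by rw [← hs]; ring
      exact (div_ne_zero ha2 ha) this
    refine jinj_exists_smul_of_E τ₁ τ₂ s hs0 ?_ ?_
    · rw [← ha₂, ← ha₁, hs]; field_simp
    · rw [← hb₂, ← hb₁, hb, hb2]; ring
  -- generic case
  have ha2 : a₂ ≠ 0 := by
    intro ha2
    rw [ha2] at hrel
    have : a₁ ^ 3 * b₂ ^ 2 = 0 := by rw [hrel]; ring
    rcases mul_eq_zero.mp this with h | h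
    · exact ha (pow_eq_zero_iff (by norm_num) |>.mp h)
    · apply hd₂; rw [ha2, pow_eq_zero_iff (by norm_num) |>.mp h]; ring
  have hb2 : b₂ ≠ 0 := by
    intro hb2
    rw [hb2] at hrel
    have : a₂ ^ 3 * b₁ ^ 2 = 0 := by rw [← hrel]; ring
    rcases mul_eq_zero.mp this with h | h
    · exact ha2 (pow_eq_zero_iff (by norm_num) |>.mp h)
    · exact hb (pow_eq_zero_iff (by norm_num) |>.mp h)
  obtain ⟨s, hs⟩ := IsAlgClosed.exists_pow_nat_eq (b₂ * a₁ / (b₁ * a₂)) (n := 2) (by norm_num)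
  have hμ : b₂ * a₁ / (b₁ * a₂) ≠ 0 := div_ne_zero (mul_ne_zero hb2 ha) (mul_ne_zero hb ha2)
  have hs0 : s ≠ 0 := by
    intro h0; rw [h0] at hs
    exact hμ (by rw [← hs]; ring)
  have hμ2 : (b₂ * a₁ / (b₁ * a₂)) ^ 2 = a₂ / a₁ := by
    field_simp
    linear_combination hrel
  refine jinj_exists_smul_of_E τ₁ τ₂ s hs0 ?_ ?_
  · rw [← ha₂, ← ha₁, show s ^ 4 = (s ^ 2) ^ 2 by ring, hs, hμ2]; field_simp
  · rw [← hb₂, ← hb₁, show s ^ 6 = (s ^ 2) ^ 2 * s ^ 2 by ring, hs, hμ2]; field_simp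

theorem jinj_slash_eqn {F : Type*} [FunLike F ℍ ℂ] {k : ℤ} [SlashInvariantFormClass F 𝒮ℒ k]
    (f : F) (γ : SL(2, ℤ)) (z : ℍ) : f (γ • z) = (denom γ z) ^ k * f z := by
  have : SlashInvariantFormClass F (CongruenceSubgroup.Gamma 1) k :=
    CongruenceSubgroup.Gamma_one_coe_eq_SL ▸ ‹_›
  exact SlashInvariantForm.slash_action_eqn_SL'' f (CongruenceSubgroup.mem_Gamma_one γ) z

/-- Converse: `SL₂(ℤ)`-equivalent points have the same `j`. -/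
theorem jinj_main_conv (τ₁ τ₂ : ℍ) (h : ∃ γ : SL(2, ℤ), γ • τ₁ = τ₂) :
    E₄ τ₁ ^ 3 * discriminant τ₂ = E₄ τ₂ ^ 3 * discriminant τ₁ := by
  obtain ⟨γ, rfl⟩ := h
  have h4 := jinj_slash_eqn E₄ γ τ₁
  have h12 : discriminant (γ • τ₁) = (denom γ τ₁) ^ (12 : ℤ) * discriminant τ₁ :=
    jinj_slash_eqn CuspForm.discriminant γ τ₁
  rw [h4, h12]
  have : ((denom γ τ₁) ^ (4 : ℤ)) ^ 3 = (denom γ τ₁) ^ (12 : ℤ) := by
    rw [← zpow_natCast, ← zpow_mul]; norm_num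
  rw [mul_pow, this]; ring

/-- **`j(τ₁) = j(τ₂)` iff `τ₁`, `τ₂` are `SL₂(ℤ)`-equivalent** (`j = E₄³/Δ`, cross-multiplied). -/
theorem jinj_iff (τ₁ τ₂ : ℍ) :
    E₄ τ₁ ^ 3 * discriminant τ₂ = E₄ τ₂ ^ 3 * discriminant τ₁ ↔ ∃ γ : SL(2, ℤ), γ • τ₁ = τ₂ :=
  ⟨jinj_main τ₁ τ₂, jinj_main_conv τ₁ τ₂⟩

/-- The Klein `j`-function `E₄³/Δ` on the upper half plane. -/
noncomputable def kleinJ (τ : ℍ) : ℂ := E₄ τ ^ 3 / discriminant τ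

theorem kleinJ_eq_iff (τ₁ τ₂ : ℍ) : kleinJ τ₁ = kleinJ τ₂ ↔ ∃ γ : SL(2, ℤ), γ • τ₁ = τ₂ := by
  rw [← jinj_iff, kleinJ, kleinJ, div_eq_div_iff (discriminant_ne_zero τ₁) (discriminant_ne_zero τ₂)]

end Fermat.Agent.X0N
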