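import Mathlib
import Fermat.Agent.X0N.JInjModular
import Fermat.Agent.S24x.JFun

/-!
# Uniformisation: every pair `(a, b)` with `a³ - 27 b² ≠ 0` is `(g₂, g₃)` of a period pair

Built on `jinjPair` / `jinjPair_G` (lattice Eisenstein sums of `(c, cτ)` in terms of `E₄ τ`, `E₆ τ`)
and the surjectivity of `j` (`Fermat.Agent.S24x.jFun_surjective`).
-/

set_option autoImplicit false

open Complex Filter Topology PeriodPair UpperHalfPlane ModularForm EisensteinSeries MatrixGroups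

namespace Fermat.Agent.X0N

/-- `ζ(6) = π⁶ / 945`. -/
theorem unif_riemannZeta_six : riemannZeta 6 = (Real.pi : ℂ) ^ 6 / 945 := by
  have h := riemannZeta_two_mul_nat (k := 3) (by norm_num)
  have hb : bernoulli 6 = 1 / 42 := by decide +kernel
  have h6 : ((2 : ℂ) * (3 : ℕ)) = 6 := by norm_num
  rw [h6] at h
  rw [h]
  norm_num [hb, Nat.factorial]
  ring

/-- the constant `120 ζ(4) = 4π⁴/3` -/
noncomputable def unifA : ℂ := 4 * (Real.pi : ℂ) ^ 4 / 3

/-- the constant `280 ζ(6) = 8π⁶/27` -/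
noncomputable def unifB : ℂ := 8 * (Real.pi : ℂ) ^ 6 / 27

theorem unif_pi_ne_zero : (Real.pi : ℂ) ≠ 0 := by exact_mod_cast Real.pi_ne_zero

theorem unifA_ne_zero : unifA ≠ 0 := by
  have hpi := unif_pi_ne_zero
  unfold unifA
  exact div_ne_zero (mul_ne_zero (by norm_num) (pow_ne_zero _ hpi)) (by norm_num)

theorem unifB_ne_zero : unifB ≠ 0 := by
  have hpi := unif_pi_ne_zero
  unfold unifB
  exact div_ne_zero (mul_ne_zero (by norm_num) (pow_ne_zero _ hpi)) (by norm_num)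

theorem unifA_cube : unifA ^ 3 = 27 * unifB ^ 2 := by
  unfold unifA unifB
  ring

/-- `g₂` of the period pair `(c, cτ)`. -/
theorem jinjPair_g₂ (c : ℂ) (hc : c ≠ 0) (τ : ℍ) :
    (jinjPair c hc τ).g₂ = (c ^ 4)⁻¹ * (unifA * E₄ τ) := by
  unfold PeriodPair.g₂
  rw [jinjPair_G c hc τ (by norm_num : 3 ≤ 4)]
  show 60 * ((c ^ 4)⁻¹ * (2 * riemannZeta ((4 : ℕ) : ℂ) * E₄ τ)) = (c ^ 4)⁻¹ * (unifA * E₄ τ)
  have h4 : riemannZeta ((4 : ℕ) : ℂ) = (Real.pi : ℂ) ^ 4 / 90 := by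
    have : ((4 : ℕ) : ℂ) = 4 := by norm_num
    rw [this, riemannZeta_four]
  rw [h4]
  unfold unifA
  ring

/-- `g₃` of the period pair `(c, cτ)`. -/
theorem jinjPair_g₃ (c : ℂ) (hc : c ≠ 0) (τ : ℍ) :
    (jinjPair c hc τ).g₃ = (c ^ 6)⁻¹ * (unifB * E₆ τ) := by
  unfold PeriodPair.g₃
  rw [jinjPair_G c hc τ (by norm_num : 3 ≤ 6)]
  show 140 * ((c ^ 6)⁻¹ * (2 * riemannZeta ((6 : ℕ) : ℂ) * E₆ τ)) = (c ^ 6)⁻¹ * (unifB * E₆ τ)
  have h6 : riemannZeta ((6 : ℕ) : ℂ) = (Real.pi : ℂ) ^ 6 / 945 := by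
    have : ((6 : ℕ) : ℂ) = 6 := by norm_num
    rw [this, unif_riemannZeta_six]
  rw [h6]
  unfold unifB
  ring

/-- The discriminant `g₂³ - 27 g₃²` of the pair `(c, cτ)` is `(2π)¹² c⁻¹² Δ(τ)`, in particular
nonzero. -/
theorem jinjPair_disc (c : ℂ) (hc : c ≠ 0) (τ : ℍ) :
    (jinjPair c hc τ).g₂ ^ 3 - 27 * (jinjPair c hc τ).g₃ ^ 2 =
      (c ^ 12)⁻¹ * (unifA ^ 3 * (1728 * discriminant τ)) := by
  rw [jinjPair_g₂, jinjPair_g₃, discriminant_eq_E₄_cube_sub_E₆_sq]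
  have h := unifA_cube
  have : ((c ^ 4)⁻¹ * (unifA * E₄ τ)) ^ 3 - 27 * ((c ^ 6)⁻¹ * (unifB * E₆ τ)) ^ 2
      = (c ^ 12)⁻¹ * (unifA ^ 3 * E₄ τ ^ 3 - 27 * unifB ^ 2 * E₆ τ ^ 2) := by
    simp only [← inv_pow]; ring
  rw [this, ← h]
  ring

/-- Scaling lemma: any `(a', b')` with `a'³ ≠ b'²` is `(s⁴ E₄ τ, s⁶ E₆ τ)`. -/
theorem unif_exists_scale (a' b' : ℂ) (h : a' ^ 3 - b' ^ 2 ≠ 0) :
    ∃ (τ : ℍ) (s : ℂ), s ≠ 0 ∧ s ^ 4 * E₄ τ = a' ∧ s ^ 6 * E₆ τ = b' := by
  have key : ∀ τ : ℍ, E₄ τ ^ 3 - E₆ τ ^ 2 ≠ 0 := by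
    intro τ h0
    have := discriminant_ne_zero τ
    rw [discriminant_eq_E₄_cube_sub_E₆_sq, h0, zero_div] at this
    exact this rfl
  have hj : ∀ τ : ℍ, Fermat.Agent.S24x.jFun τ * (E₄ τ ^ 3 - E₆ τ ^ 2) = 1728 * E₄ τ ^ 3 := by
    intro τ
    have hΔ := discriminant_ne_zero τ
    unfold Fermat.Agent.S24x.jFun
    rw [div_mul_eq_mul_div, div_eq_iff hΔ, discriminant_eq_E₄_cube_sub_E₆_sq]
    ring
  by_cases ha : a' = 0
  · -- `j τ = 0`
    have hb : b' ≠ 0 := by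
      intro hb; apply h; rw [ha, hb]; ring
    obtain ⟨τ, hτ⟩ := Fermat.Agent.S24x.jFun_surjective 0
    have h4 : E₄ τ = 0 := by
      have := hj τ
      rw [hτ, zero_mul] at this
      have h3 : E₄ τ ^ 3 = 0 := by
        have : (1728 : ℂ) * E₄ τ ^ 3 = 0 := this.symm
        rcases mul_eq_zero.mp this with h | h
        · norm_num at h
        · exact h
      exact pow_eq_zero_iff (by norm_num) |>.mp h3
    have h6 : E₆ τ ≠ 0 := by
      intro h6; apply key τ; rw [h4, h6]; ring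
    obtain ⟨s, hs⟩ := IsAlgClosed.exists_pow_nat_eq (b' / E₆ τ) (n := 6) (by norm_num)
    refine ⟨τ, s, ?_, ?_, ?_⟩
    · intro h0; rw [h0] at hs
      have : b' / E₆ τ = 0 := by rw [← hs]; ring
      exact (div_ne_zero hb h6) this
    · rw [h4, ha, mul_zero]
    · rw [hs]; field_simp
  · by_cases hb : b' = 0
    · -- `j τ = 1728`
      obtain ⟨τ, hτ⟩ := Fermat.Agent.S24x.jFun_surjective 1728
      have h6 : E₆ τ = 0 := by
        have := hj τ
        rw [hτ] at this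
        have h2 : E₆ τ ^ 2 = 0 := by
          have h' : (1728 : ℂ) * E₆ τ ^ 2 = 0 := by linear_combination -this
          rcases mul_eq_zero.mp h' with h | h
          · norm_num at h
          · exact h
        exact pow_eq_zero_iff (by norm_num) |>.mp h2
      have h4 : E₄ τ ≠ 0 := by
        intro h4; apply key τ; rw [h4, h6]; ring
      obtain ⟨s, hs⟩ := IsAlgClosed.exists_pow_nat_eq (a' / E₄ τ) (n := 4) (by norm_num)
      refine ⟨τ, s, ?_, ?_, ?_⟩
      · intro h0; rw [h0] at hs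
        have : a' / E₄ τ = 0 := by rw [← hs]; ring
        exact (div_ne_zero ha h4) this
      · rw [hs]; field_simp
      · rw [h6, hb, mul_zero]
    · -- generic case
      obtain ⟨τ, hτ⟩ := Fermat.Agent.S24x.jFun_surjective (1728 * a' ^ 3 / (a' ^ 3 - b' ^ 2))
      have hrel : E₄ τ ^ 3 * b' ^ 2 = a' ^ 3 * E₆ τ ^ 2 := by
        have := hj τ
        rw [hτ, div_mul_eq_mul_div, div_eq_iff h] at this
        have h1728 : (1728 : ℂ) ≠ 0 := by norm_num
        apply mul_left_cancel₀ h1728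
        linear_combination this
      have h4 : E₄ τ ≠ 0 := by
        intro h4
        rw [h4] at hrel
        have h6 : E₆ τ = 0 := by
          have : a' ^ 3 * E₆ τ ^ 2 = 0 := by rw [← hrel]; ring
          rcases mul_eq_zero.mp this with h | h
          · exact absurd (pow_eq_zero_iff (by norm_num) |>.mp h) ha
          · exact pow_eq_zero_iff (by norm_num) |>.mp h
        apply key τ; rw [h4, h6]; ring
      have h6 : E₆ τ ≠ 0 := by
        intro h6
        rw [h6] at hrel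
        have : E₄ τ ^ 3 * b' ^ 2 = 0 := by rw [hrel]; ring
        rcases mul_eq_zero.mp this with h | h
        · exact h4 (pow_eq_zero_iff (by norm_num) |>.mp h)
        · exact hb (pow_eq_zero_iff (by norm_num) |>.mp h)
      set u := a' / E₄ τ with hu
      set v := b' / E₆ τ with hv
      have hu0 : u ≠ 0 := div_ne_zero ha h4
      have hv0 : v ≠ 0 := div_ne_zero hb h6
      have huv : u ^ 3 = v ^ 2 := by
        rw [hu, hv, div_pow, div_pow, div_eq_div_iff (pow_ne_zero _ h4) (pow_ne_zero _ h6)]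
        linear_combination -hrel
      obtain ⟨s, hs⟩ := IsAlgClosed.exists_pow_nat_eq (v / u) (n := 2) (by norm_num)
      have hs4 : s ^ 4 = u := by
        have : s ^ 4 = (s ^ 2) ^ 2 := by ring
        rw [this, hs, div_pow, ← huv]
        field_simp
      have hs6 : s ^ 6 = v := by
        have : s ^ 6 = (s ^ 2) ^ 3 := by ring
        rw [this, hs, div_pow, huv]
        field_simp
      refine ⟨τ, s, ?_, ?_, ?_⟩
      · intro h0; rw [h0] at hs4
        exact hu0 (by rw [← hs4]; ring)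
      · rw [hs4, hu]; field_simp
      · rw [hs6, hv]; field_simp

/-- **Uniformisation.** Every `(a, b)` with `a³ - 27 b² ≠ 0` is `(g₂, g₃)` of a period pair. -/
theorem exists_periodPair_g2_g3 (a b : ℂ) (h : a ^ 3 - 27 * b ^ 2 ≠ 0) :
    ∃ L : PeriodPair, L.g₂ = a ∧ L.g₃ = b := by
  have hA := unifA_ne_zero
  have hB := unifB_ne_zero
  have hAB := unifA_cube
  have h' : (a / unifA) ^ 3 - (b / unifB) ^ 2 ≠ 0 := by
    intro h0
    apply h
    have : (a / unifA) ^ 3 - (b / unifB) ^ 2 = (a ^ 3 - 27 * b ^ 2) / unifA ^ 3 := by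
      rw [div_pow, div_pow, hAB]
      field_simp
    rw [this, div_eq_zero_iff] at h0
    rcases h0 with h0 | h0
    · exact h0
    · exact absurd h0 (pow_ne_zero _ hA)
  obtain ⟨τ, s, hs, h4, h6⟩ := unif_exists_scale _ _ h'
  have hc : s⁻¹ ≠ 0 := inv_ne_zero hs
  refine ⟨jinjPair s⁻¹ hc τ, ?_, ?_⟩
  · rw [jinjPair_g₂, inv_pow, inv_inv]
    have : s ^ 4 * (unifA * E₄ τ) = unifA * (s ^ 4 * E₄ τ) := by ring
    rw [this, h4]; field_simp
  · rw [jinjPair_g₃, inv_pow, inv_inv]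
    have : s ^ 6 * (unifB * E₆ τ) = unifB * (s ^ 6 * E₆ τ) := by ring
    rw [this, h6]; field_simp

/-- Same, as a statement about period pairs up to the exact form `(c, cτ)`; also records that the
discriminant of any pair of this form is nonzero. -/
theorem jinjPair_disc_ne_zero (c : ℂ) (hc : c ≠ 0) (τ : ℍ) :
    (jinjPair c hc τ).g₂ ^ 3 - 27 * (jinjPair c hc τ).g₃ ^ 2 ≠ 0 := by
  rw [jinjPair_disc]
  refine mul_ne_zero (inv_ne_zero (pow_ne_zero _ hc)) (mul_ne_zero (pow_ne_zero _ unifA_ne_zero)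
    (mul_ne_zero (by norm_num) (discriminant_ne_zero τ)))

end Fermat.Agent.X0N
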